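import Mathlib

/-!
# Row S41, block CORE (helper705): abstract linear algebra, Mathlib-only

* general lemmas: finite monoids have idempotent powers; commuting nilpotent families on a
  nonzero stable subspace of a finite module have a common kernel vector; a proper subspace of a
  finite-dimensional space with a nondegenerate form has a nonzero orthogonal vector;
* reduction mod `p` of lattices (`ModN`), of linear maps (`red`, `redEnd`) and forms (`redForm`);
* `coreAbs`: `C`, `B` lattices, `i : C → B`, `j : B → C` equivariant for commuting operators,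
  adjoint for nondegenerate forms mod `p`.  If no eigenvector mod `p` lies in the kernel of `i`
  mod `p` and `v` is an eigenvector mod `p` with `j (i v) ∈ p C`, then `ker j` contains an
  element congruent to `i v` mod `p`.

Proof of `coreAbs`: a pair `(eC, eB)` of polynomials in the operators, idempotent mod `p`, with
minimal range mod `p`; all shifted operators are nilpotent on that range, so `i` is injective
on it mod `p`; by duality the range lies in the image of `j` mod `p`; `p`-adic descent and the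
Artin-Rees lemma produce the element of `ker j`.
-/

set_option autoImplicit false

namespace Fermat.Agent.S41.H705

/-- In a finite monoid every element has a positive idempotent power. -/
theorem exists_pow_idem_h705 {M : Type*} [Monoid M] [Finite M] (σ : M) :
    ∃ E : ℕ, 0 < E ∧ σ ^ E * σ ^ E = σ ^ E := by
  obtain ⟨m, n, hmn, h⟩ : ∃ m n : ℕ, m ≠ n ∧ σ ^ (m + 1) = σ ^ (n + 1) := by
    have := not_injective_infinite_finite (fun n : ℕ => σ ^ (n + 1))
    simp only [Function.Injective, not_forall] at this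
    obtain ⟨m, n, h, hne⟩ := this
    exact ⟨m, n, hne, h⟩
  wlog hlt : m < n generalizing m n
  · exact this n m (Ne.symm hmn) h.symm (lt_of_le_of_ne (not_lt.mp hlt) (Ne.symm hmn))
  obtain ⟨d, rfl⟩ : ∃ d, n = m + d := ⟨n - m, by omega⟩
  have hd : 0 < d := by omega
  set a := m + 1 with ha
  have h1 : σ ^ (a + d) = σ ^ a := by
    rw [ha, h]; congr 1; omega
  have h2 : ∀ t : ℕ, σ ^ (a + t * d) = σ ^ a := by
    intro t
    induction t with
    | zero => simp
    | succ t ih =>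
      have : a + (t + 1) * d = (a + t * d) + d := by ring
      rw [this, pow_add, ih, ← pow_add, h1]
  refine ⟨a * d, Nat.mul_pos (by omega) hd, ?_⟩
  obtain ⟨r, hr⟩ : ∃ r, a * d = a + r := ⟨a * d - a, by
    have : a ≤ a * d := Nat.le_mul_of_pos_right a hd
    omega⟩
  calc σ ^ (a * d) * σ ^ (a * d) = σ ^ (a + a * d) * σ ^ r := by
        rw [← pow_add, ← pow_add]; congr 1; omega
    _ = σ ^ a * σ ^ r := by rw [h2 a]
    _ = σ ^ (a * d) := by rw [← pow_add, hr]

/-- A commuting family of operators, each nilpotent on a nonzero stable submodule `K` of a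
finite module, has a common nonzero kernel vector in `K`. -/
theorem exists_common_ker_h705 {R V ι : Type*} [Ring R] [AddCommGroup V] [Module R V] [Finite V]
    (s : ι → V →ₗ[R] V) (hcomm : ∀ l l' x, s l (s l' x) = s l' (s l x))
    (K : Submodule R V) (hK : K ≠ ⊥) (hst : ∀ l, ∀ x ∈ K, s l x ∈ K)
    (hnil : ∀ l, ∀ x ∈ K, ∃ n : ℕ, ((s l) ^ n) x = 0) :
    ∃ x ∈ K, x ≠ 0 ∧ ∀ l, s l x = 0 := by
  classical
  let S : Set (Submodule R V) := {K' | K' ≠ ⊥ ∧ K' ≤ K ∧ ∀ l, ∀ x ∈ K', s l x ∈ K'}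
  have hS : S.Nonempty := ⟨K, hK, le_rfl, hst⟩
  obtain ⟨K', hK'S, hmin⟩ := IsArtinian.set_has_minimal S hS
  obtain ⟨hK'ne, hK'le, hK'st⟩ := hK'S
  have hker : ∀ l, K' ≤ LinearMap.ker (s l) := by
    intro l
    have hmem : K' ⊓ LinearMap.ker (s l) ∈ S := by
      refine ⟨?_, inf_le_left.trans hK'le, ?_⟩
      · obtain ⟨x, hx, hx0⟩ := (Submodule.ne_bot_iff K').1 hK'ne
        -- least `n` with `s l ^ n x = 0`
        have hex : ∃ n : ℕ, ((s l) ^ n) x = 0 := hnil l x (hK'le hx)
        have hn0 : Nat.find hex ≠ 0 := by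
          intro h0
          have := Nat.find_spec hex
          rw [h0] at this
          exact hx0 (by simpa using this)
        obtain ⟨n, hn⟩ := Nat.exists_eq_succ_of_ne_zero hn0
        have hlt : ¬ ((s l) ^ n) x = 0 := Nat.find_min hex (by omega)
        have hz : s l (((s l) ^ n) x) = 0 := by
          have := Nat.find_spec hex
          rw [hn, Nat.succ_eq_add_one, pow_succ'] at this
          simpa using this
        have hstab : ∀ k : ℕ, ((s l) ^ k) x ∈ K' := by
          intro k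
          induction k with
          | zero => simpa using hx
          | succ k ih =>
            rw [pow_succ']
            exact hK'st l _ ih
        rw [Submodule.ne_bot_iff]
        exact ⟨((s l) ^ n) x, ⟨hstab n, by simpa using hz⟩, hlt⟩
      · intro l' x hx
        refine ⟨hK'st l' x hx.1, ?_⟩
        have h0 : s l x = 0 := by simpa using hx.2
        show s l (s l' x) = 0
        rw [hcomm l l' x, h0, map_zero]
    have hle : K' ⊓ LinearMap.ker (s l) ≤ K' := inf_le_left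
    have heq : K' ⊓ LinearMap.ker (s l) = K' := by
      by_contra hne
      exact hmin _ hmem (lt_of_le_of_ne hle hne)
    exact inf_eq_left.mp heq
  obtain ⟨x, hx, hx0⟩ := (Submodule.ne_bot_iff K').1 hK'ne
  exact ⟨x, hK'le hx, hx0, fun l => by simpa using hker l hx⟩

/-- A proper subspace of a finite-dimensional space carrying a left-nondegenerate bilinear form
has a nonzero left-orthogonal vector. -/
theorem exists_orth_of_lt_top_h705 {K V : Type*} [Field K] [AddCommGroup V] [Module K V]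
    [FiniteDimensional K V] (β : V →ₗ[K] Module.Dual K V) (hβ : Function.Injective β)
    (J : Submodule K V) (hJ : J < ⊤) :
    ∃ w : V, w ≠ 0 ∧ ∀ y ∈ J, β w y = 0 := by
  obtain ⟨f, hf0, hf⟩ := J.exists_le_ker_of_lt_top hJ
  have hsurj : Function.Surjective β :=
    (LinearMap.injective_iff_surjective_of_finrank_eq_finrank
      (Subspace.dual_finrank_eq (K := K) (V := V)).symm).1 hβ
  obtain ⟨w, rfl⟩ := hsurj f
  refine ⟨w, ?_, fun y hy => by simpa using hf hy⟩
  rintro rfl
  exact hf0 (map_zero β)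

variable (p : ℕ)

section Red

variable {M N P : Type*} [AddCommGroup M] [AddCommGroup N] [AddCommGroup P]

theorem mkQ_eq_zero_iff (x : M) : ModN.mkQ p x = 0 ↔ ∃ z, x = (p : ℤ) • z := by
  show (Submodule.Quotient.mk x : ModN M p) = 0 ↔ _
  rw [Submodule.Quotient.mk_eq_zero]
  constructor
  · rintro ⟨z, hz⟩
    exact ⟨z, by simpa using hz.symm⟩
  · rintro ⟨z, rfl⟩
    exact ⟨z, by simp⟩

theorem mkQ_smul_self (z : M) : ModN.mkQ p ((p : ℤ) • z) = 0 :=
  (mkQ_eq_zero_iff p _).2 ⟨z, rfl⟩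

theorem mkQ_surj : Function.Surjective (ModN.mkQ p : M → ModN M p) :=
  Submodule.mkQ_surjective _

theorem mkQ_eq_iff (x y : M) : ModN.mkQ p x = ModN.mkQ p y ↔ ∃ z, x - y = (p : ℤ) • z := by
  rw [← mkQ_eq_zero_iff, map_sub, sub_eq_zero]

theorem mkQ_zsmul (n : ℤ) (x : M) : ModN.mkQ p (n • x) = (n : ZMod p) • ModN.mkQ p x := by
  rw [map_zsmul, Int.cast_smul_eq_zsmul]

/-- Reduction mod `p` of a `ℤ`-linear map. -/
noncomputable def red (f : M →ₗ[ℤ] N) : ModN M p →ₗ[ZMod p] ModN N p :=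
  AddMonoidHom.toZModLinearMap p
    (Submodule.mapQ (LinearMap.range (LinearMap.lsmul ℤ M (p : ℤ)))
      (LinearMap.range (LinearMap.lsmul ℤ N (p : ℤ))) f (by
        rintro _ ⟨z, rfl⟩
        exact ⟨f z, by simp⟩)).toAddMonoidHom

@[simp] theorem red_mkQ (f : M →ₗ[ℤ] N) (x : M) :
    red p f (ModN.mkQ p x) = ModN.mkQ p (f x) := rfl

theorem red_comp (g : N →ₗ[ℤ] P) (f : M →ₗ[ℤ] N) : red p (g ∘ₗ f) = red p g ∘ₗ red p f := by
  refine LinearMap.ext fun x => ?_
  obtain ⟨x, rfl⟩ := mkQ_surj p x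
  rfl

/-- Reduction mod `p` of endomorphisms, as a ring homomorphism. -/
noncomputable def redEnd : Module.End ℤ M →+* Module.End (ZMod p) (ModN M p) where
  toFun := red p
  map_one' := by
    refine LinearMap.ext fun x => ?_
    obtain ⟨x, rfl⟩ := mkQ_surj p x
    rfl
  map_mul' f g := by
    refine LinearMap.ext fun x => ?_
    obtain ⟨x, rfl⟩ := mkQ_surj p x
    rfl
  map_zero' := by
    refine LinearMap.ext fun x => ?_
    obtain ⟨x, rfl⟩ := mkQ_surj p x
    simp
  map_add' f g := by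
    refine LinearMap.ext fun x => ?_
    obtain ⟨x, rfl⟩ := mkQ_surj p x
    simp

@[simp] theorem redEnd_mkQ (f : Module.End ℤ M) (x : M) :
    redEnd p f (ModN.mkQ p x) = ModN.mkQ p (f x) := rfl

theorem redEnd_eq_red (f : Module.End ℤ M) : redEnd p f = red p f := rfl

/-- Reduction mod `p` of a biadditive `ZMod p`-valued form. -/
noncomputable def redForm (β : M → N → ZMod p) (hl : ∀ x x' y, β (x + x') y = β x y + β x' y)
    (hr : ∀ x y y', β x (y + y') = β x y + β x y') :
    ModN M p →ₗ[ZMod p] Module.Dual (ZMod p) (ModN N p) :=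
  ModN.liftEquiv'.symm
    ⟨AddMonoidHom.mk' (fun x => ModN.liftEquiv'.symm
        ⟨AddMonoidHom.mk' (β x) (hr x), fun g => by
          simp [nsmul_eq_mul]⟩)
      (fun x x' => by
        refine LinearMap.ext fun y => ?_
        obtain ⟨y, rfl⟩ := mkQ_surj p y
        exact hl x x' y),
      fun g => by
        refine LinearMap.ext fun y => ?_
        simp [nsmul_eq_mul]⟩

theorem redForm_mkQ (β : M → N → ZMod p) (hl : ∀ x x' y, β (x + x') y = β x y + β x' y)
    (hr : ∀ x y y', β x (y + y') = β x y + β x y') (x : M) (y : N) :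
    redForm p β hl hr (ModN.mkQ p x) (ModN.mkQ p y) = β x y := rfl

end Red

section Main

variable (p : ℕ) {ι C B : Type*} [AddCommGroup C] [AddCommGroup B]

/-- The shifted operator `t l - a l`. -/
def sh {M : Type*} [AddCommGroup M] (t : ι → Module.End ℤ M) (a : ι → ℤ) (l : ι) :
    Module.End ℤ M :=
  t l - a l • 1

theorem sh_apply {M : Type*} [AddCommGroup M] (t : ι → Module.End ℤ M) (a : ι → ℤ) (l : ι)
    (x : M) : sh t a l x = t l x - a l • x := by
  simp [sh]

theorem pow_tw {M N : Type*} [AddCommGroup M] [AddCommGroup N] (f : M →ₗ[ℤ] N)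
    (g : Module.End ℤ M) (h : Module.End ℤ N) (hfg : ∀ x, h (f x) = f (g x)) (E : ℕ) (x : M) :
    (h ^ E) (f x) = f ((g ^ E) x) := by
  induction E generalizing x with
  | zero => simp
  | succ E ih =>
    rw [pow_succ, pow_succ, Module.End.mul_apply, Module.End.mul_apply, hfg, ih]

theorem pow_adj {M : Type*} [AddCommGroup M] (β : M →+ M →+ ZMod p) (g : Module.End ℤ M)
    (hg : ∀ x y, β (g x) y = β x (g y)) (E : ℕ) (x y : M) :
    β ((g ^ E) x) y = β x ((g ^ E) y) := by
  induction E generalizing x y with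
  | zero => simp
  | succ E ih =>
    calc β ((g ^ (E + 1)) x) y = β ((g ^ E) (g x)) y := by
          rw [pow_succ, Module.End.mul_apply]
      _ = β x (g ((g ^ E) y)) := by rw [ih, hg]
      _ = β x ((g ^ (E + 1)) y) := by rw [pow_succ', Module.End.mul_apply]

variable (tC : ι → Module.End ℤ C) (tB : ι → Module.End ℤ B) (a : ι → ℤ)
  (i : C →ₗ[ℤ] B) (j : B →ₗ[ℤ] C) (βC : C →+ C →+ ZMod p)

/-- A pair of compatible endomorphisms of `C` and `B` (polynomials in the operators). -/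
structure Good (eC : Module.End ℤ C) (eB : Module.End ℤ B) : Prop where
  comm : ∀ l, Commute eC (tC l)
  tw_i : ∀ x, eB (i x) = i (eC x)
  tw_j : ∀ y, eC (j y) = j (eB y)
  adj : ∀ x y, βC (eC x) y = βC x (eC y)
  fixB : ∀ y, (∀ l, ModN.mkQ p (sh tB a l y) = 0) → ModN.mkQ p (eB y) = ModN.mkQ p y
  idem : IsIdempotentElem (redEnd p eC)

theorem good_one : Good p tC tB a i j βC 1 1 where
  comm l := Commute.one_left _
  tw_i x := rfl
  tw_j y := rfl
  adj x y := rfl
  fixB y _ := rfl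
  idem := by rw [map_one]; exact IsIdempotentElem.one

variable {p tC tB a i j βC}

theorem sh_comm (hcommC : ∀ l l', Commute (tC l) (tC l')) (l l' : ι) :
    Commute (sh tC a l) (tC l') :=
  (hcommC l l').sub_left ((Commute.one_left (tC l')).smul_left (a l))

theorem sh_sh_comm (hcommC : ∀ l l', Commute (tC l) (tC l')) (l l' : ι) :
    Commute (sh tC a l) (sh tC a l') :=
  (sh_comm hcommC l l').sub_right ((Commute.one_right _).smul_right (a l'))

theorem Good.comm_sh {eC : Module.End ℤ C} {eB : Module.End ℤ B}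
    (h : Good p tC tB a i j βC eC eB) (l : ι) : Commute eC (sh tC a l) :=
  (h.comm l).sub_right ((Commute.one_right _).smul_right (a l))

theorem sh_tw_i (htw_i : ∀ l x, tB l (i x) = i (tC l x)) (l : ι) (x : C) :
    sh tB a l (i x) = i (sh tC a l x) := by
  rw [sh_apply, sh_apply, htw_i, map_sub, map_zsmul]

theorem sh_tw_j (htw_j : ∀ l y, tC l (j y) = j (tB l y)) (l : ι) (y : B) :
    sh tC a l (j y) = j (sh tB a l y) := by
  rw [sh_apply, sh_apply, htw_j, map_sub, map_zsmul]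

theorem sh_adj (adjT : ∀ l x y, βC (tC l x) y = βC x (tC l y)) (l : ι) (x y : C) :
    βC (sh tC a l x) y = βC x (sh tC a l y) := by
  rw [sh_apply, sh_apply, map_sub, map_sub, AddMonoidHom.sub_apply, adjT, map_zsmul,
    map_zsmul, AddMonoidHom.smul_apply]

theorem good_step (hcommC : ∀ l l', Commute (tC l) (tC l'))
    (htw_i : ∀ l x, tB l (i x) = i (tC l x))
    (htw_j : ∀ l y, tC l (j y) = j (tB l y))
    (adjT : ∀ l x y, βC (tC l x) y = βC x (tC l y))
    {eC : Module.End ℤ C} {eB : Module.End ℤ B} (h : Good p tC tB a i j βC eC eB)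
    (l : ι) (E : ℕ) (hE0 : 0 < E)
    (hE : IsIdempotentElem ((redEnd p (sh tC a l)) ^ E)) :
    Good p tC tB a i j βC (eC * (1 - sh tC a l ^ E)) (eB * (1 - sh tB a l ^ E)) where
  comm l' := (h.comm l').mul_left
    ((Commute.one_left _).sub_left ((sh_comm hcommC l l').pow_left E))
  tw_i x := by
    simp only [Module.End.mul_apply, LinearMap.sub_apply, Module.End.one_apply]
    rw [pow_tw i _ _ (sh_tw_i htw_i l) E x, ← map_sub, h.tw_i]
  tw_j y := by
    simp only [Module.End.mul_apply, LinearMap.sub_apply, Module.End.one_apply]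
    rw [pow_tw j _ _ (sh_tw_j htw_j l) E y, ← map_sub, h.tw_j]
  adj x y := by
    have hc : Commute eC (1 - sh tC a l ^ E) :=
      (Commute.one_right _).sub_right ((h.comm_sh l).pow_right E)
    have hq : ∀ x y, βC ((1 - sh tC a l ^ E) x) y = βC x ((1 - sh tC a l ^ E) y) := by
      intro x y
      simp only [LinearMap.sub_apply, Module.End.one_apply, map_sub, AddMonoidHom.sub_apply]
      rw [pow_adj p βC _ (sh_adj adjT l) E x y]
    rw [Module.End.mul_apply, h.adj, hq, ← Module.End.mul_apply, hc.eq]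
  fixB y hy := by
    obtain ⟨n, rfl⟩ : ∃ n, E = n + 1 := ⟨E - 1, by omega⟩
    have h0 : ModN.mkQ p ((sh tB a l ^ (n + 1)) y) = 0 := by
      rw [← redEnd_mkQ, map_pow, pow_succ, Module.End.mul_apply, redEnd_mkQ, hy l, map_zero]
    have h1 : ModN.mkQ p ((1 - sh tB a l ^ (n + 1)) y) = ModN.mkQ p y := by
      rw [LinearMap.sub_apply, Module.End.one_apply, map_sub, h0, sub_zero]
    rw [Module.End.mul_apply, ← redEnd_mkQ, h1, redEnd_mkQ, h.fixB y hy]
  idem := by
    rw [map_mul, map_sub, map_one, map_pow]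
    refine IsIdempotentElem.mul_of_commute ?_ h.idem hE.one_sub
    exact (Commute.one_right _).sub_right (((h.comm_sh l).map (redEnd p)).pow_right E)

variable (p tC tB a i j βC)

theorem exists_good [Fact p.Prime] [Module.Finite ℤ C] [Module.Free ℤ C]
    (hcommC : ∀ l l', Commute (tC l) (tC l'))
    (htw_i : ∀ l x, tB l (i x) = i (tC l x))
    (htw_j : ∀ l y, tC l (j y) = j (tB l y))
    (adjT : ∀ l x y, βC (tC l x) y = βC x (tC l y))
    (ihara : ∀ x, ModN.mkQ p (i x) = 0 → (∀ l, ModN.mkQ p (sh tC a l x) = 0) →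
      ModN.mkQ p x = 0) :
    ∃ eC eB, Good p tC tB a i j βC eC eB ∧
      ∀ x, ModN.mkQ p (i (eC x)) = 0 → ModN.mkQ p (eC x) = 0 := by
  classical
  have : NeZero p := ⟨(Fact.out : p.Prime).ne_zero⟩
  have : Finite (Module.End (ZMod p) (ModN C p)) :=
    Finite.of_injective (fun f => (f : ModN C p → ModN C p)) DFunLike.coe_injective
  let μ : Module.End ℤ C → ℕ := fun e =>
    Module.finrank (ZMod p) (LinearMap.range (redEnd p e))
  have hex : ∃ n, ∃ eC eB, Good p tC tB a i j βC eC eB ∧ μ eC = n :=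
    ⟨_, 1, 1, good_one p tC tB a i j βC, rfl⟩
  obtain ⟨eC, eB, hgood, hμ⟩ := Nat.find_spec hex
  have hmin : ∀ eC' eB', Good p tC tB a i j βC eC' eB' → μ eC ≤ μ eC' := fun eC' eB' h =>
    hμ ▸ Nat.find_min' hex ⟨eC', eB', h, rfl⟩
  refine ⟨eC, eB, hgood, ?_⟩
  -- every shifted operator is nilpotent on the range of `eC` mod `p`
  have hnil : ∀ l, ∃ E : ℕ, ∀ w ∈ LinearMap.range (redEnd p eC),
      ((redEnd p (sh tC a l)) ^ E) w = 0 := by
    intro l
    obtain ⟨E, hE0, hE⟩ := exists_pow_idem_h705 (redEnd p (sh tC a l))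
    have hg' := good_step hcommC htw_i htw_j adjT hgood l E hE0 hE
    have hle : LinearMap.range (redEnd p (eC * (1 - sh tC a l ^ E))) ≤
        LinearMap.range (redEnd p eC) := by
      rw [map_mul]
      rintro _ ⟨u, rfl⟩
      exact ⟨_, rfl⟩
    have heq := Submodule.eq_of_le_of_finrank_le hle (hmin _ _ hg')
    have hc : Commute (redEnd p (sh tC a l) ^ E) (redEnd p eC) :=
      (((hgood.comm_sh l).map (redEnd p)).pow_right E).symm
    have hz : redEnd p (sh tC a l) ^ E * redEnd p (eC * (1 - sh tC a l ^ E)) = 0 := by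
      rw [map_mul, map_sub, map_one, map_pow, ← mul_assoc, hc.eq, mul_assoc, mul_sub, mul_one,
        hE, sub_self, mul_zero]
    refine ⟨E, fun w hw => ?_⟩
    rw [← heq] at hw
    obtain ⟨u, rfl⟩ := hw
    rw [← Module.End.mul_apply, hz, LinearMap.zero_apply]
  intro x hx
  by_contra hne
  let K : Submodule (ZMod p) (ModN C p) := LinearMap.range (redEnd p eC) ⊓ LinearMap.ker (red p i)
  have hK : K ≠ ⊥ := by
    rw [Submodule.ne_bot_iff]
    exact ⟨ModN.mkQ p (eC x), ⟨⟨ModN.mkQ p x, rfl⟩, hx⟩, hne⟩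
  obtain ⟨x', hx'K, hx'0, hx'⟩ := exists_common_ker_h705
    (fun l => redEnd p (sh tC a l))
    (fun l l' x => by
      have := ((sh_sh_comm (a := a) hcommC l l').map (redEnd p)).eq
      simpa using congrArg (fun f => f x) this)
    K hK
    (fun l x hxK => by
      refine ⟨?_, ?_⟩
      · obtain ⟨u, rfl⟩ := hxK.1
        refine ⟨redEnd p (sh tC a l) u, ?_⟩
        have := ((hgood.comm_sh l).map (redEnd p)).eq
        simpa using congrArg (fun f => f u) this
      · have hx0 : red p i x = 0 := hxK.2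
        obtain ⟨u, rfl⟩ := mkQ_surj p x
        show red p i (redEnd p (sh tC a l) (ModN.mkQ p u)) = 0
        rw [redEnd_mkQ, red_mkQ, ← sh_tw_i htw_i, ← redEnd_mkQ, ← red_mkQ, hx0, map_zero])
    (fun l x hxK => by
      obtain ⟨E, hE⟩ := hnil l
      exact ⟨E, hE x hxK.1⟩)
  obtain ⟨x₀, rfl⟩ := mkQ_surj p x'
  exact hx'0 (ihara x₀ hx'K.2 (fun l => hx' l))

theorem good_surj [Fact p.Prime] [Module.Finite ℤ C] [Module.Free ℤ C]
    (βB : B →+ B →+ ZMod p)
    (ndC : ∀ x, (∀ y, βC x y = 0) → ModN.mkQ p x = 0)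
    (ndB : ∀ x, (∀ y, βB x y = 0) → ModN.mkQ p x = 0)
    (adj : ∀ x y, βB (i x) y = βC x (j y))
    {eC : Module.End ℤ C} {eB : Module.End ℤ B} (hgood : Good p tC tB a i j βC eC eB)
    (hf : ∀ x, ModN.mkQ p (i (eC x)) = 0 → ModN.mkQ p (eC x) = 0) :
    ∀ c, ∃ b, ModN.mkQ p (eC c) = ModN.mkQ p (j b) := by
  classical
  have : NeZero p := ⟨(Fact.out : p.Prime).ne_zero⟩
  let β : ModN C p →ₗ[ZMod p] Module.Dual (ZMod p) (ModN C p) :=
    redForm p (fun x y => βC x y) (fun x x' y => by simp) (fun x y y' => by simp)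
  have hβ : ∀ x y, β (ModN.mkQ p x) (ModN.mkQ p y) = βC x y := fun x y => rfl
  have hβinj : Function.Injective β := by
    rw [injective_iff_map_eq_zero]
    intro x hx
    obtain ⟨x, rfl⟩ := mkQ_surj p x
    refine ndC x fun y => ?_
    rw [← hβ, hx, LinearMap.zero_apply]
  let J : Submodule (ZMod p) (ModN C p) :=
    LinearMap.range (red p j) ⊔ LinearMap.range (1 - redEnd p eC)
  have hJ : J = ⊤ := by
    by_contra hJ
    obtain ⟨w, hw0, hw⟩ := exists_orth_of_lt_top_h705 β hβinj J (lt_top_iff_ne_top.2 hJ)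
    obtain ⟨w₀, rfl⟩ := mkQ_surj p w
    have h1 : ModN.mkQ p (i w₀) = 0 := by
      refine ndB _ fun b => ?_
      rw [adj, ← hβ]
      exact hw _ (Submodule.mem_sup_left ⟨ModN.mkQ p b, rfl⟩)
    have h2 : ModN.mkQ p (w₀ - eC w₀) = 0 := by
      refine ndC _ fun c => ?_
      have : βC w₀ (c - eC c) = 0 := by
        rw [← hβ]
        exact hw _ (Submodule.mem_sup_right ⟨ModN.mkQ p c, rfl⟩)
      rw [map_sub, AddMonoidHom.sub_apply, hgood.adj, ← map_sub]
      exact this
    have h3 : ModN.mkQ p w₀ = ModN.mkQ p (eC w₀) := by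
      rwa [map_sub, sub_eq_zero] at h2
    have h4 : ModN.mkQ p (i (eC w₀)) = 0 := by
      rw [← red_mkQ, ← h3, red_mkQ, h1]
    exact hw0 (h3.trans (hf w₀ h4))
  intro c
  have hc : ModN.mkQ p c ∈ J := hJ ▸ Submodule.mem_top
  obtain ⟨y, ⟨b, rfl⟩, z, ⟨u, rfl⟩, hyz⟩ := Submodule.mem_sup.1 hc
  obtain ⟨b, rfl⟩ := mkQ_surj p b
  refine ⟨eB b, ?_⟩
  have hidem : redEnd p eC ((1 - redEnd p eC) u) = 0 := by
    rw [← Module.End.mul_apply, mul_sub, mul_one, hgood.idem.eq, sub_self, LinearMap.zero_apply]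
  rw [← redEnd_mkQ, ← hyz, map_add, hidem, add_zero, red_mkQ, redEnd_mkQ, hgood.tw_j]

theorem descent [Module.Finite ℤ C]
    {eC : Module.End ℤ C} {eB : Module.End ℤ B} (hgood : Good p tC tB a i j βC eC eB)
    (hg : ∀ c, ∃ b, ModN.mkQ p (eC c) = ModN.mkQ p (j b))
    (y₀ : B) (hy₀ : ∀ l, ModN.mkQ p (sh tB a l y₀) = 0) (hj : ModN.mkQ p (j y₀) = 0) :
    ∃ κ, j κ = 0 ∧ ModN.mkQ p κ = ModN.mkQ p y₀ := by
  have step : ∀ k : ℕ, ∃ y, ModN.mkQ p y = ModN.mkQ p y₀ ∧ ∃ c, j y = ((p : ℤ) ^ (k + 1)) • c := by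
    intro k
    induction k with
    | zero =>
      obtain ⟨c, hc⟩ := (mkQ_eq_zero_iff p _).1 hj
      exact ⟨y₀, rfl, c, by simpa using hc⟩
    | succ k ih =>
      obtain ⟨y, hy, c, hc⟩ := ih
      obtain ⟨b, hb⟩ := hg c
      obtain ⟨z, hz⟩ := (mkQ_eq_iff p _ _).1 hb
      refine ⟨eB y - ((p : ℤ) ^ (k + 1)) • b, ?_, z, ?_⟩
      · have h0 : ModN.mkQ p (((p : ℤ) ^ (k + 1)) • b) = 0 := by
          rw [pow_succ', mul_smul]
          exact mkQ_smul_self p _
        rw [map_sub, h0, sub_zero, ← redEnd_mkQ, hy, redEnd_mkQ, hgood.fixB y₀ hy₀]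
      · rw [map_sub, ← hgood.tw_j, hc, map_zsmul, map_zsmul, ← smul_sub, hz, pow_succ (p : ℤ) (k + 1),
          mul_smul]
  obtain ⟨k₀, hk₀⟩ := Ideal.exists_pow_inf_eq_pow_smul (Ideal.span {(p : ℤ)}) (LinearMap.range j)
  obtain ⟨y, hy, c, hc⟩ := step k₀
  have hmem : j y ∈ Ideal.span {(p : ℤ)} ^ (k₀ + 1) • (⊤ : Submodule ℤ C) ⊓ LinearMap.range j := by
    refine ⟨?_, ⟨y, rfl⟩⟩
    rw [Ideal.span_singleton_pow, Submodule.ideal_span_singleton_smul, hc]
    exact (Submodule.mem_smul_pointwise_iff_exists _ _ _).2 ⟨c, Submodule.mem_top, rfl⟩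
  rw [hk₀ (k₀ + 1) (by omega), Nat.add_sub_cancel_left, pow_one,
    Submodule.ideal_span_singleton_smul] at hmem
  obtain ⟨m, hm, hmy⟩ := (Submodule.mem_smul_pointwise_iff_exists _ _ _).1 hmem
  obtain ⟨b', rfl⟩ := hm.2
  refine ⟨y - (p : ℤ) • b', ?_, ?_⟩
  · rw [map_sub, map_zsmul, hmy, sub_self]
  · rw [map_sub, mkQ_smul_self, sub_zero, hy]

/-- **Abstract core.** -/
theorem coreAbs [Fact p.Prime] [Module.Finite ℤ C] [Module.Free ℤ C]
    (βB : B →+ B →+ ZMod p)
    (hcommC : ∀ l l', Commute (tC l) (tC l'))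
    (htw_i : ∀ l x, tB l (i x) = i (tC l x))
    (htw_j : ∀ l y, tC l (j y) = j (tB l y))
    (ndC : ∀ x, (∀ y, βC x y = 0) → ModN.mkQ p x = 0)
    (ndB : ∀ x, (∀ y, βB x y = 0) → ModN.mkQ p x = 0)
    (adjT : ∀ l x y, βC (tC l x) y = βC x (tC l y))
    (adj : ∀ x y, βB (i x) y = βC x (j y))
    (ihara : ∀ x, ModN.mkQ p (i x) = 0 → (∀ l, ModN.mkQ p (sh tC a l x) = 0) →
      ModN.mkQ p x = 0)
    (v : C) (hv : ModN.mkQ p v ≠ 0) (hveig : ∀ l, ModN.mkQ p (sh tC a l v) = 0)
    (hjv : ModN.mkQ p (j (i v)) = 0) :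
    ∃ κ : B, j κ = 0 ∧ ModN.mkQ p κ ≠ 0 ∧ ∀ l, ModN.mkQ p (sh tB a l κ) = 0 := by
  obtain ⟨eC, eB, hgood, hf⟩ := exists_good p tC tB a i j βC hcommC htw_i htw_j adjT ihara
  have hg := good_surj p tC tB a i j βC βB ndC ndB adj hgood hf
  have hy₀ : ∀ l, ModN.mkQ p (sh tB a l (i v)) = 0 := by
    intro l
    rw [sh_tw_i htw_i, ← red_mkQ, hveig l, map_zero]
  have hy₀ne : ModN.mkQ p (i v) ≠ 0 := fun h => hv (ihara v h hveig)
  obtain ⟨κ, hκ, hκy⟩ := descent p tC tB a i j βC hgood hg (i v) hy₀ hjv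
  refine ⟨κ, hκ, hκy ▸ hy₀ne, fun l => ?_⟩
  rw [← redEnd_mkQ, hκy, redEnd_mkQ, hy₀ l]

end Main

end Fermat.Agent.S41.H705
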