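import Mathlib
import Fermat.Agent.S41.Spec.Core
import Fermat.Agent.S41.H705.CoreAbs

/-!
# Row S41, block CORE (helper705): `ribetCore : Spec.RibetCoreStatement`

Instantiation of the abstract core (`coreAbs`) at `C = A × A`, `i = i₁ + i₂`, `j = (j₁, j₂)`.
-/

set_option autoImplicit false

namespace Fermat.Agent.S41.H705

theorem mkQ_prod_eq_zero_iff (p : ℕ) {A : Type*} [AddCommGroup A] (x : A × A) :
    ModN.mkQ p x = 0 ↔ (∃ z, x.1 = (p : ℤ) • z) ∧ (∃ z, x.2 = (p : ℤ) • z) := by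
  rw [mkQ_eq_zero_iff]
  constructor
  · rintro ⟨z, rfl⟩
    exact ⟨⟨z.1, rfl⟩, ⟨z.2, rfl⟩⟩
  · rintro ⟨⟨z₁, h₁⟩, ⟨z₂, h₂⟩⟩
    exact ⟨(z₁, z₂), Prod.ext h₁ h₂⟩

theorem ribetCore : Fermat.Agent.S41.Spec.RibetCoreStatement := by
  intro p _ ι A B _ _ _ _ _ _ tA tB T i₁ i₂ j₁ j₂ c μ a βA βB
    hcA _hcB hi₁ hi₂ hj₁ hj₂ h11 h22 h12 h21 hAl hAr hBl hBr ndA ndB saA _saB adj₁ adj₂
    ihara hx hμ
  obtain ⟨x, hx0, ⟨zT, hzT⟩, hxeig⟩ := hx
  obtain ⟨k, hk⟩ := hμ
  have hA0 : ∀ x, βA x 0 = 0 := fun x => by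
    have := hAr x 0 0
    rw [add_zero] at this
    exact left_eq_add.mp this |>.symm ▸ rfl
  let tC : ι → Module.End ℤ (A × A) := fun l => LinearMap.prodMap (tA l) (tA l)
  let i : (A × A) →ₗ[ℤ] B := LinearMap.coprod i₁ i₂
  let j : B →ₗ[ℤ] (A × A) := LinearMap.prod j₁ j₂
  let bB : B →+ B →+ ZMod p :=
    AddMonoidHom.mk' (fun x => AddMonoidHom.mk' (βB x) (hBr x))
      (fun x x' => AddMonoidHom.ext fun y => hBl x x' y)
  let bC : (A × A) →+ (A × A) →+ ZMod p :=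
    AddMonoidHom.mk' (fun x => AddMonoidHom.mk' (fun y => βA x.1 y.1 + βA x.2 y.2)
        (fun y y' => by
          show βA x.1 (y.1 + y'.1) + βA x.2 (y.2 + y'.2) = _
          rw [hAr, hAr]; ring))
      (fun x x' => AddMonoidHom.ext fun y => by
        show βA (x.1 + x'.1) y.1 + βA (x.2 + x'.2) y.2 = (βA x.1 y.1 + βA x.2 y.2) +
          (βA x'.1 y.1 + βA x'.2 y.2)
        rw [hAl, hAl]; ring)
  have hbC : ∀ x y : A × A, bC x y = βA x.1 y.1 + βA x.2 y.2 := fun x y => rfl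
  have hbB : ∀ x y : B, bB x y = βB x y := fun x y => rfl
  have hi : ∀ x : A × A, i x = i₁ x.1 + i₂ x.2 := fun x => rfl
  have hj : ∀ y : B, j y = (j₁ y, j₂ y) := fun y => rfl
  have htC : ∀ l (x : A × A), tC l x = (tA l x.1, tA l x.2) := fun l x => rfl
  have hsh : ∀ l (x : A × A), sh tC a l x = (tA l x.1 - a l • x.1, tA l x.2 - a l • x.2) :=
    fun l x => by rw [sh_apply, htC]; rfl
  -- hypotheses of the abstract core
  have hcommC : ∀ l l', Commute (tC l) (tC l') := fun l l' =>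
    LinearMap.ext fun x => Prod.ext (hcA l l' x.1) (hcA l l' x.2)
  have htw_i : ∀ l x, tB l (i x) = i (tC l x) := fun l x => by
    rw [hi, hi, map_add, hi₁, hi₂, htC]
  have htw_j : ∀ l y, tC l (j y) = j (tB l y) := fun l y => by
    rw [hj, hj, htC]
    exact Prod.ext (hj₁ l y) (hj₂ l y)
  have ndC : ∀ x, (∀ y, bC x y = 0) → ModN.mkQ p x = 0 := fun x h => by
    rw [mkQ_prod_eq_zero_iff]
    refine ⟨ndA x.1 fun y => ?_, ndA x.2 fun y => ?_⟩
    · have := h (y, 0)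
      rw [hbC] at this
      simpa [hA0] using this
    · have := h (0, y)
      rw [hbC] at this
      simpa [hA0] using this
  have ndB' : ∀ x, (∀ y, bB x y = 0) → ModN.mkQ p x = 0 := fun x h =>
    (mkQ_eq_zero_iff p x).2 (ndB x h)
  have adjT : ∀ l x y, bC (tC l x) y = bC x (tC l y) := fun l x y => by
    rw [hbC, hbC, htC, htC]
    show βA (tA l x.1) y.1 + βA (tA l x.2) y.2 = _
    rw [saA, saA]
  have adj : ∀ x y, bB (i x) y = bC x (j y) := fun x y => by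
    rw [hbB, hbC, hi, hj, hBl, adj₁, adj₂]
  have ihara' : ∀ x, ModN.mkQ p (i x) = 0 → (∀ l, ModN.mkQ p (sh tC a l x) = 0) →
      ModN.mkQ p x = 0 := fun x h1 h2 => by
    rw [mkQ_prod_eq_zero_iff]
    refine ihara x.1 x.2 ((mkQ_eq_zero_iff p _).1 h1) (fun l => ?_) (fun l => ?_)
    · have := (mkQ_prod_eq_zero_iff p _).1 (h2 l)
      rw [hsh] at this
      exact this.1
    · have := (mkQ_prod_eq_zero_iff p _).1 (h2 l)
      rw [hsh] at this
      exact this.2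
  -- the start vector
  obtain ⟨v, hv, hveig, hjv⟩ : ∃ v : A × A, ModN.mkQ p v ≠ 0 ∧
      (∀ l, ModN.mkQ p (sh tC a l v) = 0) ∧ ModN.mkQ p (j (i v)) = 0 := by
    by_cases hv₁ : ModN.mkQ p ((μ • x, -(c • x)) : A × A) = 0
    · obtain ⟨⟨z₁, hz₁⟩, ⟨z₂, hz₂⟩⟩ := (mkQ_prod_eq_zero_iff p _).1 hv₁
      simp only at hz₁ hz₂
      refine ⟨(x, 0), ?_, fun l => ?_, ?_⟩
      · intro h
        exact hx0 ((mkQ_prod_eq_zero_iff p _).1 h).1
      · rw [mkQ_prod_eq_zero_iff, hsh]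
        refine ⟨hxeig l, ⟨0, ?_⟩⟩
        simp
      · rw [mkQ_prod_eq_zero_iff, hj, hi]
        simp only [map_zero, add_zero]
        rw [h11, h21]
        refine ⟨⟨-z₂, ?_⟩, ⟨zT + z₁, ?_⟩⟩
        · linear_combination (norm := module) (-1 : ℤ) • hz₂
        · linear_combination (norm := module) hzT + hz₁
    · refine ⟨(μ • x, -(c • x)), hv₁, fun l => ?_, ?_⟩
      · obtain ⟨z, hz⟩ := hxeig l
        rw [mkQ_prod_eq_zero_iff, hsh]
        refine ⟨⟨μ • z, ?_⟩, ⟨-(c • z), ?_⟩⟩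
        · simp only [map_zsmul]
          linear_combination (norm := module) μ • hz
        · simp only [map_neg, map_zsmul]
          linear_combination (norm := module) (-c) • hz
      · rw [mkQ_prod_eq_zero_iff, hj, hi]
        simp only [map_add, map_neg, map_zsmul]
        rw [h11, h12, h21, h22]
        refine ⟨⟨-(c • zT), ?_⟩, ⟨μ • zT + k • x, ?_⟩⟩
        · linear_combination (norm := module) (-c) • hzT
        · linear_combination (norm := module) μ • hzT + hk • x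
  obtain ⟨κ, hκ, hκ0, hκeig⟩ := coreAbs p tC tB a i j bC bB hcommC htw_i htw_j ndC ndB' adjT adj
    ihara' v hv hveig hjv
  refine ⟨κ, ?_, ?_, fun h => hκ0 ((mkQ_eq_zero_iff p κ).2 h), fun l => ?_⟩
  · have := congrArg Prod.fst hκ
    rwa [hj] at this
  · have := congrArg Prod.snd hκ
    rwa [hj] at this
  · have := (mkQ_eq_zero_iff p _).1 (hκeig l)
    rwa [sh_apply] at this

end Fermat.Agent.S41.H705
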